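import Fermat.Agent.S24.Generic.G3

set_option autoImplicit false

/-!
S24, integration layer 1: `G3` for a family of embeddings indexed by GROUP ELEMENTS.

`ρ : G → F₀ →+* R` is constant on left cosets `g H`, separates cosets, and `σ : G` acts by
`ρ (σ * g)`.  Output: the number of places over `x = 0` is the number of `⟨σ⟩`-orbits on `G ⧸ H`
(left cosets, left multiplication).
-/

open AlgebraicCurve IntermediateField

namespace Fermat.Agent.S24.Fibres

variable {K F : Type*} [Field K] [Field F] [Algebra K F]

theorem card_fibre_of_family [IsAlgClosed K] [CharZero K]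
    [Algebra.EssFiniteType K F] (htr : Algebra.trdeg K F = 1)
    {G : Type*} [Group G] (H : Subgroup G) [Fintype (G ⧸ H)]
    (x : F) (hx : Transcendental K x) (hfin : FiniteDimensional K⟮x⟯ F)
    (F₀ : Subalgebra K F) (hF₀ : ∀ f : F, ∃ a b : F₀, (b : F) ≠ 0 ∧ f * b = a)
    (num den : F₀) (hden : den ≠ 0) (hxnd : x * den = num)
    {R : Type*} [CommRing R] [IsDomain R] (ordR : R → ℤ)
    (hmul : ∀ a b : R, a ≠ 0 → b ≠ 0 → ordR (a * b) = ordR a + ordR b)
    (hadd : ∀ a b : R, a ≠ 0 → b ≠ 0 → a + b ≠ 0 → min (ordR a) (ordR b) ≤ ordR (a + b))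
    (ρ : G → F₀ →+* R)
    (hρ_inj : ∀ g, Function.Injective (ρ g))
    (hρ_right : ∀ g, ∀ γ ∈ H, ρ (g * γ) = ρ g)
    (hρ_sep : ∀ g h, ρ g = ρ h → g⁻¹ * h ∈ H)
    (hcard : Fintype.card (G ⧸ H) = Module.finrank K⟮x⟯ F)
    (hK : ∀ g h (c : K), ρ g (algebraMap K F₀ c) = ρ h (algebraMap K F₀ c))
    (hnum : ∀ g h, ρ g num = ρ h num) (hden' : ∀ g h, ρ g den = ρ h den)
    (hconst : ∀ g (c : K), c ≠ 0 → ordR (ρ g (algebraMap K F₀ c)) = 0)
    (s : ℕ) (hs : 0 < s) (hxs : ∀ g, ordR (ρ g num) - ordR (ρ g den) = s)
    (σ : G)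
    (hσ : ∀ g (f : F₀), ordR (ρ (σ * g) f) = ordR (ρ g f))
    (hdiv : ∀ g (f : F₀) (w : ℕ), f ≠ 0 → 0 < w → ρ (σ ^ w * g) = ρ g →
      (s : ℤ) ∣ ordR (ρ g f) * (w : ℤ)) :
    Nat.card {v : Place K F // 0 < v.ord x}
      = Nat.card (MulAction.orbitRel.Quotient (Subgroup.zpowers σ) (G ⧸ H)) := by
  classical
  let ρ' : G ⧸ H → F₀ →+* R := fun i =>
    Quotient.liftOn' i ρ (fun a b hab => by
      have hab' : a⁻¹ * b ∈ H := QuotientGroup.leftRel_apply.mp hab
      have := hρ_right a (a⁻¹ * b) hab'
      rw [mul_inv_cancel_left] at this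
      exact this.symm)
  have hsmul : ∀ (a g : G), a • (QuotientGroup.mk g : G ⧸ H) = QuotientGroup.mk (a * g) :=
    fun a g => rfl
  refine Fermat.Agent.S24.Generic.card_zeroPlaces_eq_card_orbits htr x hx hfin F₀ hF₀ num den
    hden hxnd ordR hmul hadd ρ' ?_ ?_ hcard ?_ ?_ ?_ ?_ s hs ?_ σ ?_ ?_
  · intro i
    induction i using QuotientGroup.induction_on with
    | H g => exact hρ_inj g
  · intro i j hij
    induction i using QuotientGroup.induction_on with
    | H g =>
      induction j using QuotientGroup.induction_on with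
      | H h => exact QuotientGroup.eq.mpr (hρ_sep g h hij)
  · intro i j c
    induction i using QuotientGroup.induction_on with
    | H g =>
      induction j using QuotientGroup.induction_on with
      | H h => exact hK g h c
  · intro i j
    induction i using QuotientGroup.induction_on with
    | H g =>
      induction j using QuotientGroup.induction_on with
      | H h => exact hnum g h
  · intro i j
    induction i using QuotientGroup.induction_on with
    | H g =>
      induction j using QuotientGroup.induction_on with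
      | H h => exact hden' g h
  · intro i c hc
    induction i using QuotientGroup.induction_on with
    | H g => exact hconst g c hc
  · intro i
    induction i using QuotientGroup.induction_on with
    | H g => exact hxs g
  · intro i f
    induction i using QuotientGroup.induction_on with
    | H g => exact hσ g f
  · intro i f hf
    induction i using QuotientGroup.induction_on with
    | H g =>
      set w := Function.minimalPeriod (σ • · : G ⧸ H → G ⧸ H) (QuotientGroup.mk g) with hw
      have hwpos : 0 < w :=
        Function.minimalPeriod_pos_of_mem_periodicPts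
          (Function.Injective.mem_periodicPts (MulAction.injective σ) _)
      have hper : σ ^ w • (QuotientGroup.mk g : G ⧸ H) = QuotientGroup.mk g :=
        MulAction.pow_smul_eq_iff_minimalPeriod_dvd.mpr dvd_rfl
      rw [hsmul] at hper
      have hmem : (σ ^ w * g)⁻¹ * g ∈ H := QuotientGroup.eq.mp hper
      have h1 := hρ_right (σ ^ w * g) _ hmem
      rw [mul_inv_cancel_left] at h1
      exact hdiv g f w hf hwpos h1.symm

/-- orbits of the trivial cyclic group -/
theorem card_orbits_zpowers_one (X : Type*) {G : Type*} [Group G] [MulAction G X] :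
    Nat.card (MulAction.orbitRel.Quotient (Subgroup.zpowers (1 : G)) X) = Nat.card X := by
  refine (Nat.card_congr (Equiv.ofBijective
    (fun x : X => (Quotient.mk'' x : MulAction.orbitRel.Quotient (Subgroup.zpowers (1 : G)) X))
    ⟨?_, ?_⟩)).symm
  · intro x y hxy
    have h := Quotient.exact' hxy
    rw [MulAction.orbitRel_apply] at h
    obtain ⟨⟨g, hg⟩, rfl⟩ := h
    rw [Subgroup.zpowers_one_eq_bot, Subgroup.mem_bot] at hg
    subst hg
    simp
  · intro q
    induction q using Quotient.inductionOn' with
    | h x => exact ⟨x, rfl⟩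

end Fermat.Agent.S24.Fibres
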