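import Fermat.Agent.S24.Fibres.Family
import Fermat.Agent.S24.HolH

set_option autoImplicit false
set_option linter.dupNamespace false

/-!
S24, integration layer 2: finite fibres through a ring hom `θ : F₀ →+* HolH`
(holomorphic functions on `ℍ`) and an order function `ordR : HolH → ℤ` at a point.

The embeddings are `ρ g f := compSL g⁻¹ (θ f)`, i.e. `τ ↦ θ f (g⁻¹ • τ)`, for `g : SL(2,ℤ)`.
-/

open AlgebraicCurve IntermediateField UpperHalfPlane
open scoped MatrixGroups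
open Fermat.Agent.S24.HolH

namespace Fermat.Agent.S24.Fibres

variable {K F : Type*} [Field K] [Field F] [Algebra K F]

/-- the elements of `SL(2,ℤ)` fixing a holomorphic function under precomposition -/
def stab (φ : HolH) : Subgroup SL(2, ℤ) where
  carrier := {g | compSL g φ = φ}
  mul_mem' := fun {a b} ha hb => by
    show compSL (a * b) φ = φ
    have ha' : compSL a φ = φ := ha
    have hb' : compSL b φ = φ := hb
    rw [compSL_mul, ha', hb']
  one_mem' := compSL_one φ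
  inv_mem' := fun {a} ha => by
    show compSL a⁻¹ φ = φ
    have ha' : compSL a φ = φ := ha
    conv_lhs => rw [← ha']
    exact compSL_inv_compSL a φ

theorem mem_stab {φ : HolH} {g : SL(2, ℤ)} : g ∈ stab φ ↔ compSL g φ = φ := Iff.rfl

/-- Finite fibres: `x = num` (denominator `1`), `θ num` invariant under `SL(2,ℤ)`. -/
theorem card_fibre_of_hol [IsAlgClosed K] [CharZero K]
    [Algebra.EssFiniteType K F] (htr : Algebra.trdeg K F = 1)
    (Γ : Subgroup SL(2, ℤ)) [Fintype (SL(2, ℤ) ⧸ Γ)]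
    (x : F) (hx : Transcendental K x) (hfin : FiniteDimensional K⟮x⟯ F)
    (F₀ : Subalgebra K F) (hF₀ : ∀ f : F, ∃ a b : F₀, (b : F) ≠ 0 ∧ f * b = a)
    (num : F₀) (hxnum : x = num)
    (θ : F₀ →+* HolH) (hθ_inj : Function.Injective θ)
    (ι : K →+* ℂ) (hθ_const : ∀ c : K, θ (algebraMap K F₀ c) = algebraMap ℂ HolH (ι c))
    (hθ_Γ : ∀ γ ∈ Γ, ∀ f, compSL γ (θ f) = θ f)
    (hθ_sep : ∀ γ : SL(2, ℤ), (∀ f, compSL γ (θ f) = θ f) → γ ∈ Γ)
    (hcard : Fintype.card (SL(2, ℤ) ⧸ Γ) = Module.finrank K⟮x⟯ F)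
    (hnum_inv : ∀ g : SL(2, ℤ), compSL g (θ num) = θ num)
    (ordR : HolH → ℤ)
    (hmul : ∀ a b : HolH, a ≠ 0 → b ≠ 0 → ordR (a * b) = ordR a + ordR b)
    (hadd : ∀ a b : HolH, a ≠ 0 → b ≠ 0 → a + b ≠ 0 → min (ordR a) (ordR b) ≤ ordR (a + b))
    (hord_const : ∀ c : ℂ, c ≠ 0 → ordR (algebraMap ℂ HolH c) = 0)
    (s : ℕ) (hs : 0 < s) (hxs : ordR (θ num) = s)
    (σ : SL(2, ℤ)) (hσ_ord : ∀ φ : HolH, ordR (compSL σ⁻¹ φ) = ordR φ)
    (hσ_pow : ∀ φ : HolH, compSL (σ ^ s) φ = φ)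
    (hs_prime : s = 1 ∨ s.Prime)
    (hrot : ∀ φ : HolH, φ ≠ 0 → compSL σ φ = φ → (s : ℤ) ∣ ordR φ) :
    Nat.card {v : Place K F // 0 < v.ord x}
      = Nat.card (MulAction.orbitRel.Quotient (Subgroup.zpowers σ) (SL(2, ℤ) ⧸ Γ)) := by
  classical
  let ρ : SL(2, ℤ) → F₀ →+* HolH :=
    fun g => ((compSL g⁻¹ : HolH →ₐ[ℂ] HolH) : HolH →+* HolH).comp θ
  have hρ : ∀ g f, ρ g f = compSL g⁻¹ (θ f) := fun g f => rfl
  have hord_one : ordR (1 : HolH) = 0 := by
    have := hord_const 1 one_ne_zero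
    rwa [map_one] at this
  refine card_fibre_of_family htr Γ x hx hfin F₀ hF₀ num 1 one_ne_zero (by rw [hxnum]; simp)
    ordR hmul hadd ρ ?_ ?_ ?_ hcard ?_ ?_ ?_ ?_ s hs ?_ σ ?_ ?_
  · intro g
    exact (compSL_injective g⁻¹).comp hθ_inj
  · intro g γ hγ
    refine RingHom.ext fun f => ?_
    rw [hρ, hρ, mul_inv_rev, compSL_mul, hθ_Γ γ⁻¹ (Γ.inv_mem hγ)]
  · intro g h hgh
    refine hθ_sep _ fun f => ?_
    have h1 : compSL g⁻¹ (θ f) = compSL h⁻¹ (θ f) := by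
      have := congrArg (fun r : F₀ →+* HolH => r f) hgh
      simpa [hρ] using this
    rw [compSL_mul, h1, compSL_compSL_inv]
  · intro g h c
    rw [hρ, hρ, hθ_const, AlgHom.commutes, AlgHom.commutes]
  · intro g h
    rw [hρ, hρ, hnum_inv, hnum_inv]
  · intro g h
    rw [map_one, map_one]
  · intro g c hc
    rw [hρ, hθ_const, AlgHom.commutes]
    exact hord_const _ ((map_ne_zero ι).mpr hc)
  · intro g
    rw [hρ, hnum_inv, map_one, hord_one, hxs, sub_zero]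
  · intro g f
    rw [hρ, hρ, mul_inv_rev, compSL_mul, hσ_ord]
  · intro g f w hf hw hper
    have hφ0 : ρ g f ≠ 0 := by
      intro h0
      have h1 : compSL g⁻¹ (θ f) = compSL g⁻¹ (θ 0) := by
        rw [← hρ, h0, map_zero, map_zero]
      exact hf (hθ_inj (compSL_injective g⁻¹ h1))
    have hw_mem : σ ^ w ∈ stab (ρ g f) := by
      have h1 : ρ (σ ^ w * g) f = ρ g f := by rw [hper]
      rw [hρ, mul_inv_rev, compSL_mul, ← hρ] at h1
      exact (stab (ρ g f)).inv_mem_iff.mp h1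
    rcases hs_prime with h1 | hp
    · subst h1
      simp
    · by_cases hsw : s ∣ w
      · exact Dvd.dvd.mul_left (by exact_mod_cast hsw) _
      · have hcop : Nat.Coprime w s :=
          (Nat.Coprime.symm ((Nat.Prime.coprime_iff_not_dvd hp).mpr hsw))
        have hs_mem : σ ^ s ∈ stab (ρ g f) := hσ_pow _
        have hσ_mem : σ ∈ stab (ρ g f) := by
          have hb : (σ ^ w) ^ (Nat.gcdA w s) * (σ ^ s) ^ (Nat.gcdB w s) = σ := by
            rw [← zpow_natCast σ w, ← zpow_natCast σ s, ← zpow_mul, ← zpow_mul, ← zpow_add,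
              ← Nat.gcd_eq_gcd_ab, hcop.gcd_eq_one]
            simp
          rw [← hb]
          exact (stab (ρ g f)).mul_mem ((stab (ρ g f)).zpow_mem hw_mem _)
            ((stab (ρ g f)).zpow_mem hs_mem _)
        exact Dvd.dvd.mul_right (hrot _ hφ0 hσ_mem) _

theorem adjoin_sub_algebraMap (j : F) (a : K) : K⟮j - algebraMap K F a⟯ = K⟮j⟯ := by
  apply le_antisymm
  · rw [adjoin_simple_le_iff]
    exact sub_mem (mem_adjoin_simple_self K j) (IntermediateField.algebraMap_mem _ a)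
  · rw [adjoin_simple_le_iff]
    have h : j = (j - algebraMap K F a) + algebraMap K F a := by ring
    have h2 : (j - algebraMap K F a) + algebraMap K F a ∈ K⟮j - algebraMap K F a⟯ :=
      add_mem (mem_adjoin_simple_self K _) (IntermediateField.algebraMap_mem _ a)
    rwa [← h] at h2

theorem transcendental_sub_algebraMap {j : F} (hj : Transcendental K j) (a : K) :
    Transcendental K (j - algebraMap K F a) := by
  intro h
  apply hj
  have := h.add (isAlgebraic_algebraMap (R := K) (A := F) a)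
  simpa using this

/-- Finite fibre over `j = a`, for `j` the image of `j₀ : F₀` with `θ j₀` invariant. -/
theorem card_fibre_sub_of_hol [IsAlgClosed K] [CharZero K]
    [Algebra.EssFiniteType K F] (htr : Algebra.trdeg K F = 1)
    (Γ : Subgroup SL(2, ℤ)) [Fintype (SL(2, ℤ) ⧸ Γ)]
    (F₀ : Subalgebra K F) (hF₀ : ∀ f : F, ∃ a b : F₀, (b : F) ≠ 0 ∧ f * b = a)
    (j₀ : F₀) (hj : Transcendental K (j₀ : F)) (hfin : FiniteDimensional K⟮(j₀ : F)⟯ F)
    (hcard : Fintype.card (SL(2, ℤ) ⧸ Γ) = Module.finrank K⟮(j₀ : F)⟯ F)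
    (θ : F₀ →+* HolH) (hθ_inj : Function.Injective θ)
    (ι : K →+* ℂ) (hθ_const : ∀ c : K, θ (algebraMap K F₀ c) = algebraMap ℂ HolH (ι c))
    (hθ_Γ : ∀ γ ∈ Γ, ∀ f, compSL γ (θ f) = θ f)
    (hθ_sep : ∀ γ : SL(2, ℤ), (∀ f, compSL γ (θ f) = θ f) → γ ∈ Γ)
    (hj_inv : ∀ g : SL(2, ℤ), compSL g (θ j₀) = θ j₀)
    (a : K)
    (ordR : HolH → ℤ)
    (hmul : ∀ a b : HolH, a ≠ 0 → b ≠ 0 → ordR (a * b) = ordR a + ordR b)
    (hadd : ∀ a b : HolH, a ≠ 0 → b ≠ 0 → a + b ≠ 0 → min (ordR a) (ordR b) ≤ ordR (a + b))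
    (hord_const : ∀ c : ℂ, c ≠ 0 → ordR (algebraMap ℂ HolH c) = 0)
    (s : ℕ) (hs : 0 < s) (hxs : ordR (θ j₀ - algebraMap ℂ HolH (ι a)) = s)
    (σ : SL(2, ℤ)) (hσ_ord : ∀ φ : HolH, ordR (compSL σ⁻¹ φ) = ordR φ)
    (hσ_pow : ∀ φ : HolH, compSL (σ ^ s) φ = φ)
    (hs_prime : s = 1 ∨ s.Prime)
    (hrot : ∀ φ : HolH, φ ≠ 0 → compSL σ φ = φ → (s : ℤ) ∣ ordR φ) :
    Nat.card {v : Place K F // 0 < v.ord ((j₀ : F) - algebraMap K F a)}
      = Nat.card (MulAction.orbitRel.Quotient (Subgroup.zpowers σ) (SL(2, ℤ) ⧸ Γ)) := by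
  have hfin' : FiniteDimensional K⟮(j₀ : F) - algebraMap K F a⟯ F := by
    rw [adjoin_sub_algebraMap]; exact hfin
  have hcard' : Fintype.card (SL(2, ℤ) ⧸ Γ)
      = Module.finrank K⟮(j₀ : F) - algebraMap K F a⟯ F := by
    rw [adjoin_sub_algebraMap]; exact hcard
  have hθnum : θ (j₀ - algebraMap K F₀ a) = θ j₀ - algebraMap ℂ HolH (ι a) := by
    rw [map_sub, hθ_const]
  refine card_fibre_of_hol htr Γ _ (transcendental_sub_algebraMap hj a) hfin' F₀ hF₀
    (j₀ - algebraMap K F₀ a) (by simp) θ hθ_inj ι hθ_const hθ_Γ hθ_sep hcard' ?_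
    ordR hmul hadd hord_const s hs (by rw [hθnum]; exact hxs) σ hσ_ord hσ_pow hs_prime hrot
  intro g
  rw [hθnum, map_sub, hj_inv, AlgHom.commutes]

end Fermat.Agent.S24.Fibres
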