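import Fermat.Agent.S24.Fibres.Hol
import Fermat.Agent.S24.HolHRot
import Fermat.Agent.S24.JFun
import Fermat.Agent.S24.Comb.Counts
import Fermat.Agent.S24.Modular.M0
import Fermat.Agent.S24.Modular.M3

set_option autoImplicit false
set_option linter.dupNamespace false

/-!
S24, integration layer 3: the finite fibres M4 (generic), M5 (over 1728), M6 (over 0) of
`F_N / ℚ̄(j)` from ONE analytic package `ThetaPackage N` (to be constructed by the Theta block)
plus the landed blocks `HolHOrd`, `HolHRot`, `JFun`, and the skeleton lemmas `Comb.Counts`,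
`Modular.M0`, `Modular.M3`, `Generic.G3`.
-/

open AlgebraicCurve IntermediateField UpperHalfPlane ModularCurve CongruenceSubgroup
open scoped MatrixGroups
open Fermat.Agent.S24.HolH Fermat.Agent.S24.Modular Fermat.Agent.S24.JFun

namespace Fermat.Agent.S24.Fibres

/-- What the Theta block has to supply: a generating subalgebra `F₀` of `F_N` containing `j`,
realised injectively by holomorphic functions on `ℍ`, with `j ↦ jFun`, `Γ₀(N)`-invariant image,
and `Γ₀(N)` exactly the common stabiliser. -/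
structure ThetaPackage (N : ℕ) [NeZero N] where
  F₀ : Subalgebra Kbar (FN N)
  frac : ∀ f : FN N, ∃ a b : F₀, (b : FN N) ≠ 0 ∧ f * b = a
  j₀ : F₀
  coe_j₀ : (j₀ : FN N) = jF N
  θ : F₀ →+* HolH
  θ_inj : Function.Injective θ
  ι : Kbar →+* ℂ
  θ_const : ∀ c : Kbar, θ (algebraMap Kbar F₀ c) = algebraMap ℂ HolH (ι c)
  θ_j₀ : ∀ τ : ℍ, (θ j₀ : ℍ → ℂ) τ = jFun τ
  θ_Γ : ∀ γ ∈ Gamma0 N, ∀ f, compSL γ (θ f) = θ f
  θ_sep : ∀ γ : SL(2, ℤ), (∀ f, compSL γ (θ f) = θ f) → γ ∈ Gamma0 N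

namespace ThetaPackage

variable {N : ℕ} [NeZero N] (P : ThetaPackage N)

theorem dedekindPsi_pos (N : ℕ) [NeZero N] : 0 < dedekindPsi N := by
  have h := Fermat.Agent.S24.Comb.card_quotient_Gamma0 N
  rw [← h]
  exact Nat.card_pos_iff.mpr ⟨⟨(1 : SL(2, ℤ))⟩, by
    by_contra hinf
    rw [not_finite_iff_infinite] at hinf
    have h0 : Nat.card (SL(2, ℤ) ⧸ Gamma0 N) = 0 := Nat.card_eq_zero_of_infinite
    rw [h] at h0
    have hpos : 0 < dedekindPsi N := by
      unfold dedekindPsi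
      refine Finset.sum_pos' (fun _ _ => Nat.zero_le _) ⟨1, ?_, ?_⟩
      · simp [NeZero.ne N]
      · simpa using Nat.pos_of_ne_zero (NeZero.ne N)
    omega⟩

theorem finite_quotient (N : ℕ) [NeZero N] : Finite (SL(2, ℤ) ⧸ Gamma0 N) := by
  have h := Fermat.Agent.S24.Comb.card_quotient_Gamma0 N
  have hpos := dedekindPsi_pos N
  exact Nat.finite_of_card_ne_zero (by omega)

theorem coe_θ_j₀_sub (a : Kbar) :
    ((P.θ P.j₀ - algebraMap ℂ HolH (P.ι a) : HolH) : ℍ → ℂ) = fun w => jFun w - P.ι a := by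
  funext w
  show (P.θ P.j₀ : ℍ → ℂ) w - P.ι a = _
  rw [P.θ_j₀]

theorem θ_j₀_inv (g : SL(2, ℤ)) : compSL g (P.θ P.j₀) = P.θ P.j₀ := by
  apply Subtype.ext
  funext τ
  rw [compSL_apply, P.θ_j₀, P.θ_j₀, jFun_smul]

theorem ordZ_θ_j₀_sub (a : Kbar) (τ0 : ℍ) (n : ℕ)
    (h : analyticOrderAt ((fun w : ℍ => jFun w - P.ι a) ∘ ofComplex) (τ0 : ℂ) = n) :
    ordZ τ0 (P.θ P.j₀ - algebraMap ℂ HolH (P.ι a)) = n := by
  unfold ordZ ordAt toC
  rw [P.coe_θ_j₀_sub a, h]
  simp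

theorem neg_one_smul' (τ : ℍ) : (-1 : SL(2, ℤ)) • τ = τ := by
  have := ModularGroup.SL_neg_smul (1 : SL(2, ℤ)) τ
  rwa [one_smul] at this

theorem compSL_neg_one (φ : HolH) : compSL (-1 : SL(2, ℤ)) φ = φ := by
  apply Subtype.ext
  funext τ
  rw [compSL_apply, neg_one_smul']

/-- the common core of M4, M5, M6 -/
theorem card_fibre (a : Kbar) (τ0 : ℍ) (s : ℕ) (hs : 0 < s)
    (hord : analyticOrderAt ((fun w : ℍ => jFun w - P.ι a) ∘ ofComplex) (τ0 : ℂ) = s)
    (σ : SL(2, ℤ)) (hfix : σ • τ0 = τ0) (hσ_pow : σ ^ s = 1 ∨ σ ^ s = -1)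
    (hs_prime : s = 1 ∨ s.Prime)
    (hrot : ∀ φ : HolH, φ ≠ 0 → compSL σ φ = φ → (s : ℤ) ∣ ordZ τ0 φ) :
    Nat.card {v : Place Kbar (FN N) // 0 < v.ord (jF N - algebraMap Kbar (FN N) a)}
      = Nat.card (MulAction.orbitRel.Quotient (Subgroup.zpowers σ) (SL(2, ℤ) ⧸ Gamma0 N)) := by
  classical
  haveI := finite_quotient N
  letI : Fintype (SL(2, ℤ) ⧸ Gamma0 N) := Fintype.ofFinite _
  have htr := trdeg_FN N
  have hx : Transcendental Kbar (P.j₀ : FN N) := by rw [P.coe_j₀]; exact transcendental_jF N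
  have hfin : FiniteDimensional Kbar⟮(P.j₀ : FN N)⟯ (FN N) :=
    Fermat.Agent.S24.FF.finite_adjoin_simple htr hx
  have hcard : Fintype.card (SL(2, ℤ) ⧸ Gamma0 N)
      = Module.finrank Kbar⟮(P.j₀ : FN N)⟯ (FN N) := by
    rw [P.coe_j₀, finrank_jF N, ← Nat.card_eq_fintype_card,
      Fermat.Agent.S24.Comb.card_quotient_Gamma0 N]
  have hfix' : σ⁻¹ • τ0 = τ0 := by
    conv_lhs => rw [← hfix]
    rw [inv_smul_smul]
  have key := card_fibre_sub_of_hol htr (Gamma0 N) P.F₀ P.frac P.j₀ hx hfin hcard P.θ P.θ_inj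
    P.ι P.θ_const P.θ_Γ P.θ_sep P.θ_j₀_inv a (ordZ τ0)
    (fun a b ha hb => ordZ_mul τ0 ha hb) (fun a b ha hb hab => min_le_ordZ_add τ0 ha hb hab)
    (fun c hc => ordZ_algebraMap hc) s hs (P.ordZ_θ_j₀_sub a τ0 s hord) σ
    (fun φ => by rw [ordZ_compSL, hfix'])
    (fun φ => by
      rcases hσ_pow with h | h
      · rw [h, compSL_one]
      · rw [h, compSL_neg_one])
    hs_prime hrot
  rw [P.coe_j₀] at key
  exact key

include P in
/-- M4 from a package. -/
theorem card_fibre_generic (a : Kbar) (h0 : a ≠ 0) (h1 : a ≠ 1728) :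
    Nat.card {v : Place Kbar (FN N) // 0 < v.ord (jF N - algebraMap Kbar (FN N) a)}
      = dedekindPsi N := by
  obtain ⟨τ0, hτ0⟩ := jFun_surjective (P.ι a)
  have hι0 : jFun τ0 ≠ 0 := by rw [hτ0]; exact (map_ne_zero P.ι).mpr h0
  have hι1 : jFun τ0 ≠ 1728 := by
    rw [hτ0]
    intro h
    apply h1
    apply P.ι.injective
    rw [h, map_ofNat]
  have hord := analyticOrderAt_jFun_sub_self τ0 hι0 hι1
  rw [hτ0] at hord
  rw [P.card_fibre a τ0 1 one_pos (by rw [hord]; rfl) 1 (one_smul _ _) (Or.inl (one_pow 1))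
    (Or.inl rfl) (fun φ _ _ => by simp)]
  exact (card_orbits_zpowers_one (G := SL(2, ℤ)) (SL(2, ℤ) ⧸ Gamma0 N)).trans
    (Fermat.Agent.S24.Comb.card_quotient_Gamma0 N)

include P in
/-- M5 from a package. -/
theorem card_fibre_1728 :
    2 * Nat.card {v : Place Kbar (FN N) // 0 < v.ord (jF N - algebraMap Kbar (FN N) 1728)}
      = dedekindPsi N + nuTwo N := by
  have hord : analyticOrderAt ((fun w : ℍ => jFun w - P.ι 1728) ∘ ofComplex)
      (UpperHalfPlane.I : ℂ) = (2 : ℕ) := by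
    rw [map_ofNat]
    exact analyticOrderAt_jFun_sub_I
  rw [P.card_fibre 1728 UpperHalfPlane.I 2 two_pos hord ModularGroup.S S_smul_I
    (Or.inr (by decide)) (Or.inr Nat.prime_two)
    (fun φ hφ hinv => two_dvd_ordZ_of_S_fixed S_smul_I hφ hinv)]
  exact Fermat.Agent.S24.Comb.card_orbits_S N

include P in
/-- M6 from a package. -/
theorem card_fibre_zero :
    3 * Nat.card {v : Place Kbar (FN N) // 0 < v.ord (jF N - algebraMap Kbar (FN N) 0)}
      = dedekindPsi N + 2 * nuThree N := by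
  have hord : analyticOrderAt ((fun w : ℍ => jFun w - P.ι 0) ∘ ofComplex)
      (rho : ℂ) = (3 : ℕ) := by
    rw [map_zero]
    have h := analyticOrderAt_jFun_rho
    have he : ((fun w : ℍ => jFun w - 0) ∘ ofComplex) = jFun ∘ ofComplex := by
      funext z
      simp
    rw [he]
    exact h
  rw [P.card_fibre 0 rho 3 (by norm_num) hord (ModularGroup.S * ModularGroup.T) ST_smul_rho
    (Or.inr (by decide)) (Or.inr Nat.prime_three)
    (fun φ hφ hinv => three_dvd_ordZ_of_ST_fixed ST_smul_rho hφ hinv)]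
  exact Fermat.Agent.S24.Comb.card_orbits_ST N

end ThetaPackage

end Fermat.Agent.S24.Fibres
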